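import Mathlib

/-!
# Descent of "the maximal ideal is locally principal" along a module retraction

`A ⊆ B` noetherian rings, `A` a domain, `B` integral over `A`, and `A` a direct summand of `B`
as an `A`-module (`ρ : B →ₗ[A] A`, `ρ 1 = 1`; e.g. a normalised trace).  Let `𝔭` be a maximal
ideal of `A` of height at most one.  If at every maximal ideal `𝔮` of `B` above `𝔭` the ring
`B_𝔮` is a domain with principal maximal ideal (elementwise: `LocDomain 𝔮`, `LocPrinc 𝔮`), then
`A_𝔭` has principal maximal ideal (`LocPrinc 𝔭`).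

Proof: `A_𝔭` is integrally closed.  Indeed let `a / b` be integral over `A_𝔭`; in the chain ring
`B_𝔮` either `a ∈ b B_𝔮`, or `b = c a` with `c` in the maximal ideal and then the integral
equation gives `unit * a ^ n = 0`, so `a = 0`.  Hence the colon ideal `(b B : a)` is contained in
no maximal ideal above `𝔭`; by lying-over it contains some `y ∈ A ∖ 𝔭`, and applying `ρ` to
`y a ∈ b B` gives `y a ∈ b A`.  A noetherian integrally closed local domain of dimension at
most one has principal maximal ideal.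

This is the descent step for "the special fibre is normal at a tame branch point": `B` the
reduction of the Abhyankar cover, `ρ` the normalised trace.
-/

set_option autoImplicit false

open Polynomial IsLocalRing

namespace Fermat.Agent.S37.Normal

/-- `𝔮 B_𝔮` is a principal ideal (elementwise form, no localisation type). -/
def LocPrinc {B : Type*} [CommRing B] (𝔮 : Ideal B) : Prop :=
  ∃ s ∈ 𝔮, ∀ m ∈ 𝔮, ∃ y, y ∉ 𝔮 ∧ y * m ∈ Ideal.span {s}

/-- `B_𝔮` is a domain (elementwise form, no localisation type). -/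
def LocDomain {B : Type*} [CommRing B] (𝔮 : Ideal B) : Prop :=
  ∀ a b : B, a * b = 0 → ∃ y, y ∉ 𝔮 ∧ (y * a = 0 ∨ y * b = 0)

section LocalRing

variable {W : Type*} [CommRing W] [IsLocalRing W]

/-- In a noetherian local ring with principal maximal ideal `(s)`, every nonzero element is a
unit times a power of `s`. -/
theorem exists_eq_pow_mul_unit [IsNoetherianRing W] (s : W)
    (hs : maximalIdeal W = Ideal.span {s}) (x : W) (hx : x ≠ 0) :
    ∃ (n : ℕ) (w : W), IsUnit w ∧ x = s ^ n * w := by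
  classical
  have hK : ⨅ i : ℕ, maximalIdeal W ^ i = ⊥ :=
    Ideal.iInf_pow_eq_bot_of_isLocalRing _ (maximalIdeal.isMaximal W).ne_top
  have hex : ∃ i : ℕ, x ∉ maximalIdeal W ^ i := by
    by_contra hcon
    have hcon' : ∀ i : ℕ, x ∈ maximalIdeal W ^ i := fun i => by
      by_contra hi
      exact hcon ⟨i, hi⟩
    have : x ∈ ⨅ i : ℕ, maximalIdeal W ^ i := (Ideal.mem_iInf).2 hcon'
    rw [hK] at this
    exact hx ((Ideal.mem_bot).1 this)
  set n := Nat.find hex with hn
  have hn1 : x ∉ maximalIdeal W ^ n := Nat.find_spec hex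
  have hn0 : n ≠ 0 := by
    intro h0
    rw [h0, pow_zero, Ideal.one_eq_top] at hn1
    exact hn1 Submodule.mem_top
  obtain ⟨k, hk⟩ : ∃ k, n = k + 1 := ⟨n - 1, by omega⟩
  have hk1 : x ∈ maximalIdeal W ^ k := by
    by_contra hcon
    have := Nat.find_min' hex hcon
    omega
  rw [hs, Ideal.span_singleton_pow, Ideal.mem_span_singleton'] at hk1
  obtain ⟨w, hw⟩ := hk1
  refine ⟨k, w, ?_, by rw [← hw, mul_comm]⟩
  rw [← IsLocalRing.notMem_maximalIdeal]
  intro hwm
  rw [hs, Ideal.mem_span_singleton'] at hwm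
  obtain ⟨w', hw'⟩ := hwm
  apply hn1
  rw [hk, hs, Ideal.span_singleton_pow, Ideal.mem_span_singleton']
  exact ⟨w', by rw [← hw, ← hw', pow_succ]; ring⟩

/-- **Chain property.**  In a noetherian local ring with principal maximal ideal, of two elements
one divides the other; more precisely `a ∈ (b)` or `b ∈ 𝔪 a`. -/
theorem chain_of_principal [IsNoetherianRing W] (s : W)
    (hs : maximalIdeal W = Ideal.span {s}) (a b : W) :
    (∃ c, a = c * b) ∨ ∃ c ∈ maximalIdeal W, b = c * a := by
  by_cases ha : a = 0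
  · exact Or.inl ⟨0, by rw [ha, zero_mul]⟩
  by_cases hb : b = 0
  · exact Or.inr ⟨0, Ideal.zero_mem _, by rw [hb, zero_mul]⟩
  obtain ⟨n, w, hw, rfl⟩ := exists_eq_pow_mul_unit s hs a ha
  obtain ⟨m, w', hw', rfl⟩ := exists_eq_pow_mul_unit s hs b hb
  obtain ⟨v, hv⟩ := hw.exists_left_inv
  obtain ⟨v', hv'⟩ := hw'.exists_left_inv
  rcases le_or_gt m n with hmn | hmn
  · refine Or.inl ⟨s ^ (n - m) * w * v', ?_⟩
    have : s ^ n = s ^ (n - m) * s ^ m := by rw [← pow_add, Nat.sub_add_cancel hmn]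
    rw [this]
    calc s ^ (n - m) * s ^ m * w = s ^ (n - m) * s ^ m * w * (v' * w') := by rw [hv', mul_one]
      _ = s ^ (n - m) * w * v' * (s ^ m * w') := by ring
  · refine Or.inr ⟨s ^ (m - n) * w' * v, ?_, ?_⟩
    · obtain ⟨k, hk⟩ : ∃ k, m - n = k + 1 := ⟨m - n - 1, by omega⟩
      rw [hk, pow_succ, hs, Ideal.mem_span_singleton']
      exact ⟨s ^ k * w' * v, by ring⟩
    · have : s ^ m = s ^ (m - n) * s ^ n := by rw [← pow_add, Nat.sub_add_cancel hmn.le]
      rw [this]
      calc s ^ (m - n) * s ^ n * w' = s ^ (m - n) * s ^ n * w' * (v * w) := by rw [hv, mul_one]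
        _ = s ^ (m - n) * w' * v * (s ^ n * w) := by ring

/-- In a local domain with the chain property, a fraction `a / b` satisfying a monic equation
(in homogeneous form `scaleRoots`) is an element: `a ∈ (b)`. -/
theorem exists_eq_mul_of_scaleRoots [IsDomain W]
    (hchain : ∀ a b : W, (∃ c, a = c * b) ∨ ∃ c ∈ maximalIdeal W, b = c * a)
    (a b : W) (q : W[X]) (hq : q.Monic) (h : (q.scaleRoots b).eval a = 0) :
    ∃ c, a = c * b := by
  rcases hchain a b with h1 | ⟨c, hc, rfl⟩
  · exact h1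
  · set n := q.natDegree with hn
    have h2 : (q.scaleRoots (c * a)).eval a =
        a ^ n * ∑ i ∈ Finset.range (n + 1), q.coeff i * c ^ (n - i) := by
      rw [eval_eq_sum_range, natDegree_scaleRoots, Finset.mul_sum]
      refine Finset.sum_congr rfl fun i hi => ?_
      have hi' : i ≤ n := Nat.lt_succ_iff.mp (Finset.mem_range.mp hi)
      rw [coeff_scaleRoots, ← hn, mul_pow]
      have : a ^ n = a ^ (n - i) * a ^ i := by rw [← pow_add, Nat.sub_add_cancel hi']
      rw [this]
      ring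
    rw [h2] at h
    have hu : IsUnit (∑ i ∈ Finset.range (n + 1), q.coeff i * c ^ (n - i)) := by
      rw [← IsLocalRing.notMem_maximalIdeal]
      intro hmem
      rw [Finset.sum_range_succ] at hmem
      have h3 : ∑ i ∈ Finset.range n, q.coeff i * c ^ (n - i) ∈ maximalIdeal W := by
        refine Ideal.sum_mem _ fun i hi => ?_
        have hi' : i < n := Finset.mem_range.mp hi
        obtain ⟨k, hk⟩ : ∃ k, n - i = k + 1 := ⟨n - i - 1, by omega⟩
        rw [hk, pow_succ]
        exact Ideal.mul_mem_left _ _ (Ideal.mul_mem_left _ _ hc)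
      have h4 : q.coeff n * c ^ (n - n) = 1 := by
        rw [Nat.sub_self, pow_zero, mul_one, hn]
        exact hq.coeff_natDegree
      rw [h4] at hmem
      have h5 : (1 : W) ∈ maximalIdeal W := by
        have := Ideal.sub_mem _ hmem h3
        rwa [add_sub_cancel_left] at this
      exact (maximalIdeal.isMaximal W).ne_top ((Ideal.eq_top_iff_one _).2 h5)
    have ha : a = 0 := by
      rcases mul_eq_zero.mp h with h6 | h6
      · exact pow_eq_zero_iff (n := n) (by
          intro h0
          rw [h0, pow_zero] at h6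
          exact one_ne_zero h6) |>.mp h6
      · exact absurd h6 hu.ne_zero
    exact ⟨0, by rw [ha, mul_zero, mul_zero]⟩

end LocalRing

section Upstairs

variable {B : Type*} [CommRing B]

/-- `LocDomain 𝔮` makes the localisation at `𝔮` a domain. -/
theorem isDomain_localization_of_locDomain (𝔮 : Ideal B) [𝔮.IsPrime] (h : LocDomain 𝔮) :
    IsDomain (Localization.AtPrime 𝔮) := by
  have hnz : NoZeroDivisors (Localization.AtPrime 𝔮) := by
    refine ⟨?_⟩
    intro x y hxy
    obtain ⟨a, s₁, rfl⟩ := IsLocalization.exists_mk'_eq 𝔮.primeCompl x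
    obtain ⟨b, s₂, rfl⟩ := IsLocalization.exists_mk'_eq 𝔮.primeCompl y
    rw [← IsLocalization.mk'_mul, IsLocalization.mk'_eq_zero_iff] at hxy
    obtain ⟨s₃, hs₃⟩ := hxy
    have h1 : (↑s₃ * a) * b = 0 := by rw [mul_assoc]; exact hs₃
    obtain ⟨y, hy, h2 | h2⟩ := h _ _ h1
    · left
      rw [IsLocalization.mk'_eq_zero_iff]
      exact ⟨⟨y, hy⟩ * s₃, by
        change y * ↑s₃ * a = 0
        rw [mul_assoc]; exact h2⟩
    · right
      rw [IsLocalization.mk'_eq_zero_iff]
      exact ⟨⟨y, hy⟩, h2⟩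
  exact NoZeroDivisors.to_isDomain _

/-- **Local step upstairs.**  At a prime `𝔮` of a noetherian ring `B` with `B_𝔮` a domain with
principal maximal ideal, a "fraction" `a / b` satisfying a monic equation satisfies
`y a ∈ b B` for some `y ∉ 𝔮`. -/
theorem exists_mul_eq_mul_of_scaleRoots [IsNoetherianRing B] (𝔮 : Ideal B) [𝔮.IsPrime]
    (hP : LocPrinc 𝔮) (hD : LocDomain 𝔮) (a b : B) (q : B[X]) (hq : q.Monic)
    (h : (q.scaleRoots b).eval a = 0) :
    ∃ y, y ∉ 𝔮 ∧ ∃ c, y * a = c * b := by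
  classical
  let W := Localization.AtPrime 𝔮
  have hdom : IsDomain W := isDomain_localization_of_locDomain 𝔮 hD
  have hnoeth : IsNoetherianRing W :=
    IsLocalization.isNoetherianRing 𝔮.primeCompl W inferInstance
  obtain ⟨s, hs𝔮, hs⟩ := hP
  let f : B →+* W := algebraMap B W
  have hmax : maximalIdeal W = Ideal.span {f s} := by
    rw [← Localization.AtPrime.map_eq_maximalIdeal]
    refine le_antisymm ?_ ?_
    · rw [Ideal.map_le_iff_le_comap]
      intro m hm
      obtain ⟨y, hy, hym⟩ := hs m hm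
      obtain ⟨c, hc⟩ := Ideal.mem_span_singleton'.1 hym
      rw [Ideal.mem_comap]
      have hyu : IsUnit (f y) := IsLocalization.map_units W (⟨y, hy⟩ : 𝔮.primeCompl)
      obtain ⟨v, hv⟩ := hyu.exists_left_inv
      rw [Ideal.mem_span_singleton']
      refine ⟨v * f c, ?_⟩
      calc v * f c * f s = v * f (c * s) := by rw [map_mul]; ring
        _ = v * f (y * m) := by rw [hc]
        _ = (v * f y) * f m := by rw [map_mul]; ring
        _ = f m := by rw [hv, one_mul]
    · rw [Ideal.span_le, Set.singleton_subset_iff]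
      exact Ideal.mem_map_of_mem _ hs𝔮
  have hchain := chain_of_principal (f s) hmax
  have hqW : (q.map f).Monic := hq.map f
  have hrel : ((q.map f).scaleRoots (f b)).eval (f a) = 0 := by
    have h1 : (q.map f).scaleRoots (f b) = (q.scaleRoots b).map f := by
      rw [Polynomial.map_scaleRoots]
      rw [hq.leadingCoeff, map_one]
      exact one_ne_zero
    rw [h1, Polynomial.eval_map_apply, h, map_zero]
  obtain ⟨c₀, hc₀⟩ := exists_eq_mul_of_scaleRoots hchain (f a) (f b) (q.map f) hqW hrel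
  obtain ⟨c, y, rfl⟩ := IsLocalization.exists_mk'_eq 𝔮.primeCompl c₀
  have h2 : f (↑y * a) = f (c * b) := by
    rw [map_mul, map_mul, hc₀, ← mul_assoc, mul_comm (f ↑y), IsLocalization.mk'_spec]
  obtain ⟨y', hy'⟩ := (IsLocalization.eq_iff_exists 𝔮.primeCompl W).1 h2
  refine ⟨↑y' * ↑y, ?_, ↑y' * c, ?_⟩
  · exact fun hmem => (Ideal.IsPrime.mem_or_mem ‹𝔮.IsPrime› hmem).elim y'.2 y.2
  · rw [mul_assoc, hy', mul_assoc]

end Upstairs

section Descent

variable {A B : Type*} [CommRing A] [IsDomain A] [CommRing B] [IsNoetherianRing B]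
  [Algebra A B] [Algebra.IsIntegral A B]

/-- **Purity step.**  `A → B` pure for principal ideals (`b B ∩ A = b A`), `a, b : A` with
`a / b` satisfying a monic equation over `A`; then `y a ∈ b A` for some `y ∉ 𝔭`. -/
theorem exists_mul_eq_mul_of_pure
    (hpure : ∀ a b : A, (∃ c : B, algebraMap A B a = c * algebraMap A B b) → ∃ d : A, a = d * b)
    (𝔭 : Ideal A) [h𝔭 : 𝔭.IsMaximal]
    (hup : ∀ 𝔮 : Ideal B, 𝔮.IsMaximal → 𝔮.comap (algebraMap A B) = 𝔭 →
      LocPrinc 𝔮 ∧ LocDomain 𝔮)
    (a b : A) (q : A[X]) (hq : q.Monic) (h : (q.scaleRoots b).eval a = 0) :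
    ∃ y, y ∉ 𝔭 ∧ ∃ c, y * a = c * b := by
  classical
  have : Nontrivial B := by
    refine ⟨⟨0, 1, fun h01 => ?_⟩⟩
    obtain ⟨d, hd⟩ := hpure 1 0 ⟨0, by rw [map_one, map_zero, mul_zero, h01]⟩
    rw [mul_zero] at hd
    exact one_ne_zero hd
  let g : A →+* B := algebraMap A B
  -- the colon ideal `(b B : a)`
  let J : Ideal B := (Ideal.span {g b} : Submodule B B).colon {g a}
  have hJ : ∀ z : B, z ∈ J ↔ ∃ c, z * g a = c * g b := by
    intro z
    rw [Submodule.mem_colon_singleton, smul_eq_mul, Ideal.mem_span_singleton']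
    exact ⟨fun ⟨c, hc⟩ => ⟨c, hc.symm⟩, fun ⟨c, hc⟩ => ⟨c, hc.symm⟩⟩
  have hrel : ((q.map g).scaleRoots (g b)).eval (g a) = 0 := by
    have h1 : (q.map g).scaleRoots (g b) = (q.scaleRoots b).map g := by
      rw [Polynomial.map_scaleRoots]
      rw [hq.leadingCoeff, map_one]
      exact one_ne_zero
    rw [h1, Polynomial.eval_map_apply, h, map_zero]
  have hnot : ¬ J.comap g ≤ 𝔭 := by
    intro hle
    obtain ⟨Q, hQJ, hQp, hQ⟩ := Ideal.exists_ideal_over_prime_of_isIntegral 𝔭 J hle
    have hQmax : Q.IsMaximal := by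
      have : (Q.comap (algebraMap A B)).IsMaximal := by rw [hQ]; exact h𝔭
      exact Ideal.isMaximal_of_isIntegral_of_isMaximal_comap Q this
    obtain ⟨hP, hD⟩ := hup Q hQmax hQ
    obtain ⟨y, hy, c, hc⟩ :=
      exists_mul_eq_mul_of_scaleRoots Q hP hD (g a) (g b) (q.map g) (hq.map g) hrel
    exact hy (hQJ ((hJ y).2 ⟨c, hc⟩))
  obtain ⟨y, hyJ, hy𝔭⟩ := SetLike.not_le_iff_exists.1 hnot
  obtain ⟨c, hc⟩ := (hJ (g y)).1 (Ideal.mem_comap.1 hyJ)
  obtain ⟨d, hd⟩ := hpure (y * a) b ⟨c, by rw [map_mul]; exact hc⟩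
  exact ⟨y, hy𝔭, d, hd⟩

omit [IsDomain A] [IsNoetherianRing B] [Algebra.IsIntegral A B] in
/-- A module retraction makes `A → B` pure for principal ideals. -/
theorem pure_of_retraction (ρ : B →ₗ[A] A) (hρ : ρ 1 = 1) (a b : A)
    (h : ∃ c : B, algebraMap A B a = c * algebraMap A B b) : ∃ d : A, a = d * b := by
  obtain ⟨c, hc⟩ := h
  refine ⟨ρ c, ?_⟩
  have h1 : ρ (algebraMap A B a) = a := by
    have : algebraMap A B a = a • (1 : B) := by rw [Algebra.smul_def, mul_one]
    rw [this, map_smul, hρ, smul_eq_mul, mul_one]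
  have h2 : ρ (c * algebraMap A B b) = ρ c * b := by
    have : c * algebraMap A B b = b • c := by rw [Algebra.smul_def, mul_comm]
    rw [this, map_smul, smul_eq_mul, mul_comm]
  rw [← h1, hc, h2]

variable [IsNoetherianRing A]

/-- **Descent of local principality along a pure integral extension.** -/
theorem locPrinc_of_pure
    (hpure : ∀ a b : A, (∃ c : B, algebraMap A B a = c * algebraMap A B b) → ∃ d : A, a = d * b)
    (𝔭 : Ideal A) [h𝔭 : 𝔭.IsMaximal]
    (hdim : ∀ P : Ideal A, P.IsPrime → P ≤ 𝔭 → P = 𝔭 ∨ P = ⊥)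
    (hup : ∀ 𝔮 : Ideal B, 𝔮.IsMaximal → 𝔮.comap (algebraMap A B) = 𝔭 →
      LocPrinc 𝔮 ∧ LocDomain 𝔮) :
    LocPrinc 𝔭 := by
  classical
  let D := Localization.AtPrime 𝔭
  let K := FractionRing A
  have hinjK : Function.Injective (algebraMap A K) := IsFractionRing.injective A K
  have hunitK : ∀ y : 𝔭.primeCompl, IsUnit (algebraMap A K y) := fun y =>
    IsUnit.mk0 _ ((map_ne_zero_iff _ hinjK).mpr (fun h0 => y.2 (h0 ▸ 𝔭.zero_mem)))
  let algDK : Algebra D K := (IsLocalization.lift (M := 𝔭.primeCompl) hunitK).toAlgebra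
  have towerADK : IsScalarTower A D K := IsScalarTower.of_algebraMap_eq fun a => by
    simp [RingHom.algebraMap_toAlgebra, D]
  have fracD : IsFractionRing D K :=
    IsFractionRing.isFractionRing_of_isDomain_of_isLocalization 𝔭.primeCompl D K
  have domD : IsDomain D := IsLocalization.isDomain_of_atPrime D 𝔭
  have noethD : IsNoetherianRing D := IsLocalization.isNoetherianRing 𝔭.primeCompl D inferInstance
  -- `D` is integrally closed
  have icD : IsIntegrallyClosed D := by
    rw [isIntegrallyClosed_iff K]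
    intro x hx
    obtain ⟨m, hm⟩ := IsIntegral.exists_multiple_integral_of_isLocalization 𝔭.primeCompl x hx
    obtain ⟨q, hq, hqx⟩ := hm
    obtain ⟨a, b, hab⟩ := IsLocalization.exists_mk'_eq (nonZeroDivisors A) (m • x)
    rw [← hab] at hqx
    have h1 : aeval (algebraMap A K a) (scaleRoots q (b : A)) = 0 :=
      scaleRoots_aeval_eq_zero_of_aeval_mk'_eq_zero hqx
    have h2 : (q.scaleRoots (b : A)).eval a = 0 := by
      apply hinjK
      rw [map_zero, ← h1, aeval_def, eval₂_at_apply]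
    obtain ⟨y, hy, c, hc⟩ := exists_mul_eq_mul_of_pure hpure 𝔭 hup a b q hq h2
    -- `m • x = a / b = c / y`, so `x = c / (y m)`
    refine ⟨IsLocalization.mk' D c (⟨y, hy⟩ * m : 𝔭.primeCompl), ?_⟩
    have hbK : algebraMap A K (b : A) ≠ 0 :=
      (map_ne_zero_iff _ hinjK).mpr (nonZeroDivisors.ne_zero b.2)
    have hyK : algebraMap A K y ≠ 0 :=
      (map_ne_zero_iff _ hinjK).mpr (fun h0 => hy (h0 ▸ 𝔭.zero_mem))
    have hmK : algebraMap A K (m : A) ≠ 0 :=
      (map_ne_zero_iff _ hinjK).mpr (fun h0 => m.2 (h0 ▸ 𝔭.zero_mem))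
    have h3 : algebraMap A K (m : A) * x * algebraMap A K (b : A) = algebraMap A K a := by
      have h4 : IsLocalization.mk' K a b * algebraMap A K (b : A) = algebraMap A K a :=
        IsLocalization.mk'_spec K a b
      rw [hab] at h4
      rw [← h4, Submonoid.smul_def, Algebra.smul_def]
    have h5 : algebraMap D K (IsLocalization.mk' D c (⟨y, hy⟩ * m : 𝔭.primeCompl)) *
        (algebraMap A K y * algebraMap A K (m : A)) = algebraMap A K c := by
      have h6 : IsLocalization.mk' D c (⟨y, hy⟩ * m : 𝔭.primeCompl) *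
          algebraMap A D ((⟨y, hy⟩ * m : 𝔭.primeCompl) : A) = algebraMap A D c :=
        IsLocalization.mk'_spec D c _
      have h7 := congrArg (algebraMap D K) h6
      rw [map_mul, ← IsScalarTower.algebraMap_apply A D K,
        ← IsScalarTower.algebraMap_apply A D K] at h7
      rw [← h7, ← map_mul]
      rfl
    have h8 : algebraMap A K y * algebraMap A K a = algebraMap A K c * algebraMap A K (b : A) := by
      rw [← map_mul, ← map_mul, hc]
    apply mul_right_cancel₀ (mul_ne_zero (mul_ne_zero hyK hmK) hbK)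
    calc algebraMap D K (IsLocalization.mk' D c (⟨y, hy⟩ * m : 𝔭.primeCompl)) *
          (algebraMap A K y * algebraMap A K (m : A) * algebraMap A K (b : A))
        = algebraMap A K c * algebraMap A K (b : A) := by rw [← mul_assoc, h5]
      _ = algebraMap A K y * (algebraMap A K (m : A) * x * algebraMap A K (b : A)) := by
          rw [h3, h8]
      _ = x * (algebraMap A K y * algebraMap A K (m : A) * algebraMap A K (b : A)) := by ring
  -- dimension at most one
  have hdimD : ∀ P : Ideal D, P ≠ ⊥ → P.IsPrime → P = maximalIdeal D := by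
    intro P hP0 hPp
    have hcp : (P.comap (algebraMap A D)).IsPrime := Ideal.comap_isPrime _ P
    have hle : P.comap (algebraMap A D) ≤ 𝔭 := by
      intro z hz
      by_contra hz𝔭
      have : IsUnit (algebraMap A D z) := IsLocalization.map_units D (⟨z, hz𝔭⟩ : 𝔭.primeCompl)
      exact hPp.ne_top (Ideal.eq_top_of_isUnit_mem _ (Ideal.mem_comap.1 hz) this)
    have hmc : (P.comap (algebraMap A D)).map (algebraMap A D) = P :=
      IsLocalization.map_under 𝔭.primeCompl D P
    rcases hdim _ hcp hle with h1 | h1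
    · rw [← hmc, h1]
      exact Localization.AtPrime.map_eq_maximalIdeal
    · exfalso
      apply hP0
      rw [← hmc, h1, Ideal.map_bot]
  have h34 : (IsIntegrallyClosed D ∧ ∀ P : Ideal D, P ≠ ⊥ → P.IsPrime → P = maximalIdeal D) →
      (maximalIdeal D).IsPrincipal :=
    ((tfae_of_isNoetherianRing_of_isLocalRing_of_isDomain D).out 3 4).1
  have hprinc : (maximalIdeal D).IsPrincipal := h34 ⟨icD, hdimD⟩
  obtain ⟨g₀, hg₀⟩ := hprinc.principal
  obtain ⟨t, s, rfl⟩ := IsLocalization.exists_mk'_eq 𝔭.primeCompl g₀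
  have hmaxD : maximalIdeal D = Ideal.span {algebraMap A D t} := by
    rw [hg₀, ← Ideal.span]
    refine Ideal.span_singleton_eq_span_singleton.2 ?_
    have hsu : IsUnit (algebraMap A D (s : A)) := IsLocalization.map_units D s
    obtain ⟨u, hu⟩ := hsu
    refine ⟨u, ?_⟩
    rw [hu, IsLocalization.mk'_spec]
  have ht𝔭 : t ∈ 𝔭 := by
    have : algebraMap A D t ∈ maximalIdeal D := by
      rw [hmaxD]; exact Ideal.mem_span_singleton_self _
    exact (IsLocalization.AtPrime.to_map_mem_maximal_iff D 𝔭 t).1 this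
  refine ⟨t, ht𝔭, fun m hm => ?_⟩
  have hmD : algebraMap A D m ∈ maximalIdeal D :=
    (IsLocalization.AtPrime.to_map_mem_maximal_iff D 𝔭 m).2 hm
  rw [hmaxD, Ideal.mem_span_singleton'] at hmD
  obtain ⟨c₀, hc₀⟩ := hmD
  obtain ⟨c, y, rfl⟩ := IsLocalization.exists_mk'_eq 𝔭.primeCompl c₀
  have h2 : algebraMap A D (↑y * m) = algebraMap A D (c * t) := by
    rw [map_mul, map_mul, ← hc₀, ← mul_assoc, mul_comm (algebraMap A D ↑y),
      IsLocalization.mk'_spec]
  have hinjD : Function.Injective (algebraMap A D) :=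
    IsLocalization.injective D 𝔭.primeCompl_le_nonZeroDivisors
  refine ⟨y, y.2, ?_⟩
  rw [hinjD h2, Ideal.mem_span_singleton']
  exact ⟨c, rfl⟩

/-- **Descent of local principality along a retraction.** -/
theorem locPrinc_of_retraction (ρ : B →ₗ[A] A) (hρ : ρ 1 = 1) (𝔭 : Ideal A)
    [h𝔭 : 𝔭.IsMaximal]
    (hdim : ∀ P : Ideal A, P.IsPrime → P ≤ 𝔭 → P = 𝔭 ∨ P = ⊥)
    (hup : ∀ 𝔮 : Ideal B, 𝔮.IsMaximal → 𝔮.comap (algebraMap A B) = 𝔭 →
      LocPrinc 𝔮 ∧ LocDomain 𝔮) :
    LocPrinc 𝔭 :=
  locPrinc_of_pure (pure_of_retraction ρ hρ) 𝔭 hdim hup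

end Descent

end Fermat.Agent.S37.Normal
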