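import Mathlib
import Fermat.Agent.Lib.UnitDisc
import Fermat.Agent.S30.Model.LocalDomain
import Fermat.Agent.S37.Normal.Descent

/-!
# E7 brick (b): "the special fibre is normal", elementwise form `PrincAt`

`PrincAt p M` : the maximal ideal `M` of `C` is generated by `p` and one more element after
localising at `M`, i.e. `(C / p)_M` has principal maximal ideal.  Together with
`LocalDomain.LDAt p M` ("`(C / p)_M` is a domain") this says that `(C / p)_M` is a discrete
valuation ring or a field.  It is the twin of `LocalDomain.LDAt` and is what the local unit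
theorem of E7 (`S37.LocalUnit`: local ring with maximal ideal `(π, t)`) consumes.

* `princAt_of_isUnit_discr` : unit discriminant over a local base with maximal ideal `(π, s)`
  (non-branch points; the cover at a branch point).
* `princAt_of_isLocalization` : `PrincAt` descends from a localisation.
* `exists_maximalIdeal_eq_span_pair` : the localisation form.
* `princAt_of_pure` : descent along a pure integral extension `C ⊆ C'` (e.g. a direct summand:
  `princAt_of_retraction`), from `PrincAt` and `LDAt` at every maximal ideal of `C'` above `M`.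
-/

set_option autoImplicit false

namespace Fermat.Agent.S37.Normal

open Fermat.Agent.S30.Model Fermat.Agent.Lib IsLocalRing

/-- `M C_M = (p, t) C_M` for some `t ∈ M` (elementwise, no localisation type). -/
def PrincAt {C : Type*} [CommRing C] (p : C) (M : Ideal C) : Prop :=
  ∃ t ∈ M, ∀ m ∈ M, ∃ s, s ∉ M ∧ s * m ∈ Ideal.span {p, t}

/-- **Unit discriminant ⇒ `PrincAt`.**  `R` local with maximal ideal `(π, s)`, `C` finite free
over `R` with a basis of unit discriminant: every maximal ideal `M` of `C` is generated by `π`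
and `s` after localising at `M` (the closed fibre is a product of fields). -/
theorem princAt_of_isUnit_discr {R C ι : Type*} [CommRing R] [CommRing C] [Algebra R C]
    [Fintype ι] [DecidableEq ι] [IsLocalRing R] (b : Module.Basis ι R C)
    (hb : IsUnit (Algebra.discr R b)) {π s : R} (hmax : maximalIdeal R = Ideal.span {π, s})
    (M : Ideal C) (hM : M.IsMaximal) :
    PrincAt (algebraMap R C π) M := by
  have hfin : Module.Finite R C := Module.Finite.of_basis b
  have hMp : M.IsPrime := hM.isPrime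
  have hcm : (M.comap (algebraMap R C)).IsMaximal :=
    Ideal.isMaximal_comap_of_isIntegral_of_isMaximal M
  have hcomap : M.comap (algebraMap R C) = maximalIdeal R := IsLocalRing.eq_maximalIdeal hcm
  have hle : (maximalIdeal R).map (algebraMap R C) ≤ M := by
    rw [Ideal.map_le_iff_le_comap, hcomap]
  obtain ⟨e, he, hem⟩ := UnitDisc.exists_not_mem_forall_mul_mem b hb (maximalIdeal R) M hle
  have hmap : (maximalIdeal R).map (algebraMap R C) =
      Ideal.span {algebraMap R C π, algebraMap R C s} := by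
    rw [hmax, Ideal.map_span, Set.image_pair]
  refine ⟨algebraMap R C s, ?_, fun m hm => ⟨e, he, ?_⟩⟩
  · apply hle
    rw [hmap]
    exact Ideal.subset_span (by simp)
  · rw [← hmap]
    exact hem m hm

/-- `PrincAt` descends from a localisation. -/
theorem princAt_of_isLocalization {C C' : Type*} [CommRing C] [CommRing C'] [Algebra C C']
    (S : Submonoid C) [IsLocalization S C'] (p : C) (M : Ideal C) [hM : M.IsPrime]
    (hMS : Disjoint (S : Set C) (M : Set C))
    (h : PrincAt (algebraMap C C' p) (M.map (algebraMap C C'))) : PrincAt p M := by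
  obtain ⟨t', ht', h⟩ := h
  obtain ⟨⟨⟨t, htM⟩, s₀⟩, hts⟩ := (IsLocalization.mem_map_algebraMap_iff S C').1 ht'
  have hSM : ∀ s : S, (s : C) ∉ M := fun s hs => Set.disjoint_left.mp hMS s.2 hs
  refine ⟨t, htM, fun m hm => ?_⟩
  obtain ⟨y', hy', hym⟩ := h (algebraMap C C' m) (Ideal.mem_map_of_mem _ hm)
  rw [Ideal.mem_span_pair] at hym
  obtain ⟨a', b', hab⟩ := hym
  obtain ⟨y, s₁, rfl⟩ := IsLocalization.exists_mk'_eq S y'
  obtain ⟨a, s₂, rfl⟩ := IsLocalization.exists_mk'_eq S a'
  obtain ⟨b, s₃, rfl⟩ := IsLocalization.exists_mk'_eq S b'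
  have hyM : y ∉ M := by
    intro hy
    apply hy'
    rw [IsLocalization.mk'_eq_mul_mk'_one]
    exact Ideal.mul_mem_right _ _ (Ideal.mem_map_of_mem _ hy)
  have e1 : IsLocalization.mk' C' a s₂ * algebraMap C C' ↑s₂ = algebraMap C C' a :=
    IsLocalization.mk'_spec C' a s₂
  have e2 : IsLocalization.mk' C' b s₃ * algebraMap C C' ↑s₃ = algebraMap C C' b :=
    IsLocalization.mk'_spec C' b s₃
  have e3 : IsLocalization.mk' C' y s₁ * algebraMap C C' ↑s₁ = algebraMap C C' y :=
    IsLocalization.mk'_spec C' y s₁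
  have e4 : t' * algebraMap C C' ↑s₀ = algebraMap C C' t := hts
  have key : algebraMap C C' (↑s₀ * ↑s₂ * ↑s₃ * y * m) =
      algebraMap C C' (↑s₀ * ↑s₁ * ↑s₃ * a * p + ↑s₁ * ↑s₂ * b * t) := by
    simp only [map_mul, map_add]
    rw [← e1, ← e2, ← e3, ← e4]
    linear_combination (-(algebraMap C C' ↑s₀ * algebraMap C C' ↑s₁ * algebraMap C C' ↑s₂ *
      algebraMap C C' ↑s₃)) * hab
  obtain ⟨s₄, hs₄⟩ := (IsLocalization.eq_iff_exists S C').1 key
  refine ⟨↑s₄ * (↑s₀ * ↑s₂ * ↑s₃ * y), ?_, ?_⟩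
  · intro hmem
    rcases hM.mem_or_mem hmem with h1 | h1
    · exact hSM s₄ h1
    · rcases hM.mem_or_mem h1 with h2 | h2
      · rcases hM.mem_or_mem h2 with h3 | h3
        · rcases hM.mem_or_mem h3 with h4 | h4
          · exact hSM s₀ h4
          · exact hSM s₂ h4
        · exact hSM s₃ h3
      · exact hyM h2
  · rw [Ideal.mem_span_pair]
    exact ⟨↑s₄ * (↑s₀ * ↑s₁ * ↑s₃ * a), ↑s₄ * (↑s₁ * ↑s₂ * b), by linear_combination -hs₄⟩

/-- Localisation form of `PrincAt`: the maximal ideal of `C_M` is `(p, t)`. -/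
theorem exists_maximalIdeal_eq_span_pair {C : Type*} [CommRing C] (p : C) (M : Ideal C)
    [hM : M.IsPrime] (hp : p ∈ M) (h : PrincAt p M) :
    ∃ t ∈ M, maximalIdeal (Localization.AtPrime M) =
      Ideal.span {algebraMap C (Localization.AtPrime M) p,
        algebraMap C (Localization.AtPrime M) t} := by
  obtain ⟨t, htM, h⟩ := h
  refine ⟨t, htM, ?_⟩
  rw [← Localization.AtPrime.map_eq_maximalIdeal]
  refine le_antisymm ?_ ?_
  · rw [Ideal.map_le_iff_le_comap]
    intro m hm
    obtain ⟨s, hs, hsm⟩ := h m hm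
    rw [Ideal.mem_span_pair] at hsm
    obtain ⟨a, b, hab⟩ := hsm
    have hsu : IsUnit (algebraMap C (Localization.AtPrime M) s) :=
      IsLocalization.map_units (Localization.AtPrime M) (⟨s, hs⟩ : M.primeCompl)
    obtain ⟨v, hv⟩ := hsu.exists_left_inv
    rw [Ideal.mem_comap, Ideal.mem_span_pair]
    refine ⟨v * algebraMap C _ a, v * algebraMap C _ b, ?_⟩
    have h1 := congrArg (algebraMap C (Localization.AtPrime M)) hab
    simp only [map_mul, map_add] at h1
    calc v * algebraMap C _ a * algebraMap C _ p + v * algebraMap C _ b * algebraMap C _ t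
        = v * (algebraMap C _ a * algebraMap C _ p + algebraMap C _ b * algebraMap C _ t) := by
          ring
      _ = v * (algebraMap C _ s * algebraMap C _ m) := by rw [h1]
      _ = (v * algebraMap C _ s) * algebraMap C _ m := by ring
      _ = algebraMap C _ m := by rw [hv, one_mul]
  · rw [Ideal.span_le]
    rintro x (rfl | rfl)
    · exact Ideal.mem_map_of_mem _ hp
    · exact Ideal.mem_map_of_mem _ htM

section Descent

variable {C C' : Type*} [CommRing C] [IsNoetherianRing C] [CommRing C']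
  [IsNoetherianRing C'] [Algebra C C'] [Algebra.IsIntegral C C']

/-- **Descent of `PrincAt` along a pure integral extension.**  `π` a prime element of the
domain `C`, `M ∋ π` a maximal ideal such that the only primes between `(π)` and `M` are `(π)`
and `M`; `C ⊆ C'` integral with `(b, π) C' ∩ C = (b, π) C` for all `b`.  If `C'` satisfies
`PrincAt` and `LDAt` modulo `π` at every maximal ideal above `M`, then `C` satisfies `PrincAt`
modulo `π` at `M`. -/
theorem princAt_of_pure (π : C) (hπ : Prime π) (M : Ideal C) [hM : M.IsMaximal] (hπM : π ∈ M)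
    (hpure : ∀ a b : C, (∃ c d : C', algebraMap C C' a = c * algebraMap C C' b +
      d * algebraMap C C' π) → ∃ c d : C, a = c * b + d * π)
    (hdim : ∀ P : Ideal C, P.IsPrime → π ∈ P → P ≤ M → P = M ∨ P = Ideal.span {π})
    (hup : ∀ M' : Ideal C', M'.IsMaximal → M'.comap (algebraMap C C') = M →
      PrincAt (algebraMap C C' π) M' ∧ LocalDomain.LDAt (algebraMap C C' π) M') :
    PrincAt π M := by
  classical
  let p : Ideal C := Ideal.span {π}
  have hpp : p.IsPrime := (Ideal.span_singleton_prime hπ.ne_zero).2 hπ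
  let p' : Ideal C' := p.map (algebraMap C C')
  have hp' : p' = Ideal.span {algebraMap C C' π} := by
    simp only [p', p, Ideal.map_span, Set.image_singleton]
  let A₀ := C ⧸ p
  let B₀ := C' ⧸ p'
  let mkA : C →+* A₀ := Ideal.Quotient.mk p
  let mkB : C' →+* B₀ := Ideal.Quotient.mk p'
  have hmkA : Function.Surjective mkA := Ideal.Quotient.mk_surjective
  have hmkB : Function.Surjective mkB := Ideal.Quotient.mk_surjective
  have hcomm : ∀ c : C, algebraMap A₀ B₀ (mkA c) = mkB (algebraMap C C' c) := fun c => rfl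
  have hmkA0 : ∀ c : C, mkA c = 0 ↔ π ∣ c := fun c => by
    rw [Ideal.Quotient.eq_zero_iff_mem, Ideal.mem_span_singleton]
  have hmkB0 : ∀ c : C', mkB c = 0 ↔ algebraMap C C' π ∣ c := fun c => by
    rw [Ideal.Quotient.eq_zero_iff_mem, hp', Ideal.mem_span_singleton]
  have hint : Algebra.IsIntegral A₀ B₀ := by
    refine ⟨fun x => ?_⟩
    obtain ⟨c, rfl⟩ := hmkB x
    obtain ⟨q, hq, hqc⟩ := Algebra.IsIntegral.isIntegral (R := C) c
    refine ⟨q.map mkA, hq.map _, ?_⟩
    rw [Polynomial.eval₂_map]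
    have h1 : (algebraMap A₀ B₀).comp mkA = mkB.comp (algebraMap C C') := RingHom.ext hcomm
    rw [h1, ← Polynomial.hom_eval₂, hqc, map_zero]
  -- the maximal ideal downstairs
  let 𝔭 : Ideal A₀ := M.map mkA
  have hple : p ≤ M := (Ideal.span_singleton_le_iff_mem M).2 hπM
  have hcomap𝔭 : 𝔭.comap mkA = M := by
    rw [Ideal.comap_map_of_surjective mkA hmkA]
    refine le_antisymm (sup_le le_rfl ?_) le_sup_left
    intro x hx
    rw [Ideal.mem_comap, Ideal.mem_bot] at hx
    exact hple (Ideal.Quotient.eq_zero_iff_mem.1 hx)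
  have h𝔭max : 𝔭.IsMaximal := by
    rcases Ideal.map_eq_top_or_isMaximal_of_surjective mkA hmkA hM with h1 | h1
    · exfalso
      have h2 : M = ⊤ := by rw [← hcomap𝔭, show 𝔭 = ⊤ from h1, Ideal.comap_top]
      exact hM.ne_top h2
    · exact h1
  have hmem𝔭 : ∀ c : C, mkA c ∈ 𝔭 ↔ c ∈ M := fun c => by
    rw [← Ideal.mem_comap, hcomap𝔭]
  -- purity
  have hpure₀ : ∀ a b : A₀, (∃ c : B₀, algebraMap A₀ B₀ a = c * algebraMap A₀ B₀ b) →
      ∃ d : A₀, a = d * b := by
    intro a b ⟨c, hc⟩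
    obtain ⟨a, rfl⟩ := hmkA a
    obtain ⟨b, rfl⟩ := hmkA b
    obtain ⟨c, rfl⟩ := hmkB c
    rw [hcomm, hcomm, ← map_mul, ← sub_eq_zero, ← map_sub, hmkB0] at hc
    obtain ⟨d, hd⟩ := hc
    obtain ⟨c₁, d₁, h1⟩ := hpure a b ⟨c, d, by rw [← sub_eq_iff_eq_add', hd]; ring⟩
    refine ⟨mkA c₁, ?_⟩
    rw [← map_mul, ← sub_eq_zero, ← map_sub, hmkA0]
    exact ⟨d₁, by rw [h1]; ring⟩
  -- dimension
  have hdim₀ : ∀ P : Ideal A₀, P.IsPrime → P ≤ 𝔭 → P = 𝔭 ∨ P = ⊥ := by
    intro P hP hP𝔭
    have hPc : (P.comap mkA).IsPrime := Ideal.comap_isPrime _ P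
    have hπP : π ∈ P.comap mkA := by
      rw [Ideal.mem_comap, (hmkA0 π).2 dvd_rfl]
      exact P.zero_mem
    have hle : P.comap mkA ≤ M := by
      rw [← hcomap𝔭]
      exact Ideal.comap_mono hP𝔭
    have hmc : (P.comap mkA).map mkA = P := Ideal.map_comap_of_surjective mkA hmkA P
    rcases hdim _ hPc hπP hle with h1 | h1
    · left
      rw [← hmc, h1]
    · right
      rw [← hmc, h1]
      simp only [Ideal.map_span, Set.image_singleton]
      rw [(hmkA0 π).2 dvd_rfl, Ideal.span_singleton_eq_bot]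
  -- upstairs
  have hup₀ : ∀ 𝔮 : Ideal B₀, 𝔮.IsMaximal → 𝔮.comap (algebraMap A₀ B₀) = 𝔭 →
      LocPrinc 𝔮 ∧ LocDomain 𝔮 := by
    intro 𝔮 h𝔮 h𝔮𝔭
    let M' : Ideal C' := 𝔮.comap mkB
    have hM'max : M'.IsMaximal := Ideal.comap_isMaximal_of_surjective mkB hmkB
    have hM'M : M'.comap (algebraMap C C') = M := by
      rw [← hcomap𝔭, ← h𝔮𝔭]
      ext c
      simp only [M', Ideal.mem_comap]
      rw [hcomm]
    have hmem𝔮 : ∀ c : C', mkB c ∈ 𝔮 ↔ c ∈ M' := fun c => Iff.rfl
    obtain ⟨⟨t, htM', ht⟩, hLD⟩ := hup M' hM'max hM'M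
    refine ⟨⟨mkB t, htM', ?_⟩, ?_⟩
    · intro m hm
      obtain ⟨m, rfl⟩ := hmkB m
      obtain ⟨s, hs, hsm⟩ := ht m hm
      rw [Ideal.mem_span_pair] at hsm
      obtain ⟨a, b, hab⟩ := hsm
      refine ⟨mkB s, hs, ?_⟩
      rw [Ideal.mem_span_singleton']
      refine ⟨mkB b, ?_⟩
      have h1 := congrArg mkB hab
      simp only [map_add, map_mul] at h1
      rw [(hmkB0 _).2 dvd_rfl, mul_zero, zero_add] at h1
      exact h1
    · intro a b hab
      obtain ⟨a, rfl⟩ := hmkB a
      obtain ⟨b, rfl⟩ := hmkB b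
      rw [← map_mul, hmkB0] at hab
      obtain ⟨s, hs, h1 | h1⟩ := hLD a b hab
      · exact ⟨mkB s, hs, Or.inl (by rw [← map_mul, hmkB0]; exact h1)⟩
      · exact ⟨mkB s, hs, Or.inr (by rw [← map_mul, hmkB0]; exact h1)⟩
  have hdom : IsDomain A₀ := Ideal.Quotient.isDomain p
  obtain ⟨t, ht𝔭, ht⟩ := locPrinc_of_pure (A := A₀) (B := B₀) hpure₀ 𝔭 hdim₀ hup₀
  obtain ⟨t, rfl⟩ := hmkA t
  refine ⟨t, (hmem𝔭 t).1 ht𝔭, fun m hm => ?_⟩
  obtain ⟨y, hy, hym⟩ := ht (mkA m) ((hmem𝔭 m).2 hm)
  obtain ⟨y, rfl⟩ := hmkA y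
  rw [Ideal.mem_span_singleton'] at hym
  obtain ⟨c, hc⟩ := hym
  obtain ⟨c, rfl⟩ := hmkA c
  rw [← map_mul, ← map_mul, ← sub_eq_zero, ← map_sub, hmkA0] at hc
  obtain ⟨d, hd⟩ := hc
  refine ⟨y, fun hyM => hy ((hmem𝔭 y).2 hyM), ?_⟩
  rw [Ideal.mem_span_pair]
  exact ⟨-d, c, by linear_combination hd⟩

/-- **Descent of `PrincAt` along a module retraction** (`C` a direct summand of `C'`). -/
theorem princAt_of_retraction (ρ : C' →ₗ[C] C) (hρ : ρ 1 = 1) (π : C) (hπ : Prime π)
    (M : Ideal C) [hM : M.IsMaximal] (hπM : π ∈ M)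
    (hdim : ∀ P : Ideal C, P.IsPrime → π ∈ P → P ≤ M → P = M ∨ P = Ideal.span {π})
    (hup : ∀ M' : Ideal C', M'.IsMaximal → M'.comap (algebraMap C C') = M →
      PrincAt (algebraMap C C' π) M' ∧ LocalDomain.LDAt (algebraMap C C' π) M') :
    PrincAt π M := by
  refine princAt_of_pure π hπ M hπM ?_ hdim hup
  rintro a b ⟨c, d, h⟩
  refine ⟨ρ c, ρ d, ?_⟩
  have h1 : ρ (algebraMap C C' a) = a := by
    have : algebraMap C C' a = a • (1 : C') := by rw [Algebra.smul_def, mul_one]
    rw [this, map_smul, hρ, smul_eq_mul, mul_one]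
  have h2 : ∀ (x : C') (y : C), ρ (x * algebraMap C C' y) = ρ x * y := by
    intro x y
    have : x * algebraMap C C' y = y • x := by rw [Algebra.smul_def, mul_comm]
    rw [this, map_smul, smul_eq_mul, mul_comm]
  rw [← h1, h, map_add, h2, h2]

end Descent

end Fermat.Agent.S37.Normal
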