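import Mathlib
import Fermat.Agent.S30.Model.LocalNB
import Fermat.Agent.S37.Normal.Basic

/-!
# E7 brick (b) at a non-branch closed point: `PrincAt`

Twin of `LocalNB.ldAt_of_tsdField` (same hypotheses, verbatim): `A` a Noetherian integrally
closed UFD (a chart `O[u]`), `π` a prime element with `A ⧸ (π)` a principal ideal ring,
`K = Frac A`, `L / K` finite separable, `C₀ = integralClosure A L`, `M ∋ π` a maximal ideal of
`C₀` such that the integral closure is trace-self-dual at every prime element of `A` lying in
`M`.  Then `M (C₀)_M = (π, t) (C₀)_M` for some `t ∈ M`: the special fibre `C₀ / π` has principal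
maximal ideal at `M` (with `LDAt`: it is a discrete valuation ring or a field there).
-/

set_option autoImplicit false

namespace Fermat.Agent.S37.Normal

open Fermat.Agent.S30.Model Fermat.Agent.Lib

/-- The extension of a maximal ideal disjoint from `S` to the localisation at `S` is maximal. -/
theorem isMaximal_map_of_isLocalization {C C' : Type*} [CommRing C] [CommRing C'] [Algebra C C']
    (S : Submonoid C) [IsLocalization S C'] (M : Ideal C) (hM : M.IsMaximal)
    (hMS : Disjoint (S : Set C) (M : Set C)) : (M.map (algebraMap C C')).IsMaximal := by
  have hMp : M.IsPrime := hM.isPrime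
  set M' : Ideal C' := M.map (algebraMap C C') with hM'
  have hM'prime : M'.IsPrime := IsLocalization.isPrime_of_isPrime_disjoint S C' M hMp hMS
  have hcomap : M'.comap (algebraMap C C') = M :=
    IsLocalization.under_map_of_isPrime_disjoint S C' hMp hMS
  refine Ideal.isMaximal_iff.mpr ⟨?_, ?_⟩
  · intro h1
    exact hM'prime.ne_top ((Ideal.eq_top_iff_one _).mpr h1)
  · intro J x hMJ hxM hxJ
    by_contra h1
    have hJne : J ≠ ⊤ := fun h => h1 (by rw [h]; exact Submodule.mem_top)
    have hle : M ≤ J.comap (algebraMap C C') := by
      rw [← hcomap]; exact Ideal.comap_mono hMJ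
    have hne : J.comap (algebraMap C C') ≠ ⊤ := by
      intro h
      apply hJne
      rw [Ideal.eq_top_iff_one] at h ⊢
      rw [Ideal.mem_comap, map_one] at h
      exact h
    have heq : J.comap (algebraMap C C') = M := (hM.eq_of_le hne hle).symm
    have : J = M' := by
      rw [hM', ← heq]
      exact (IsLocalization.map_under S (S := C') J).symm
    rw [this] at hxJ
    exact hxM hxJ

universe u v

variable {A : Type u} {K : Type*} {L : Type v} [CommRing A] [IsDomain A] [IsNoetherianRing A]
  [IsIntegrallyClosed A] [UniqueFactorizationMonoid A]
  [Field K] [Algebra A K] [IsFractionRing A K] [Field L] [Algebra K L] [Algebra A L]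
  [IsScalarTower A K L] [FiniteDimensional K L] [Algebra.IsSeparable K L]

/-- **(b) at a non-branch point.**  Same hypotheses as `LocalNB.ldAt_of_tsdField`. -/
theorem princAt_of_tsdField (π : A) (hπ : Prime π) [IsPrincipalIdealRing (A ⧸ Ideal.span {π})]
    (M : Ideal (integralClosure A L)) (hM : M.IsMaximal)
    (hπM : algebraMap A (integralClosure A L) π ∈ M)
    (h : ∀ p : A, Prime p → algebraMap A (integralClosure A L) p ∈ M →
      LocalDisc.TSDField A K L p) :
    PrincAt (algebraMap A (integralClosure A L) π) M := by
  classical
  have hinjK : Function.Injective (algebraMap A K) := IsFractionRing.injective A K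
  have hinj : Function.Injective (algebraMap A L) := by
    rw [IsScalarTower.algebraMap_eq A K L]
    exact (algebraMap K L).injective.comp hinjK
  have hfs : FaithfulSMul A L := (faithfulSMul_iff_algebraMap_injective A L).mpr hinj
  set x : Ideal A := M.comap (algebraMap A (integralClosure A L)) with hx
  have hxmax : x.IsMaximal := Ideal.isMaximal_comap_of_isIntegral_of_isMaximal M
  have hπx : π ∈ x := Ideal.mem_comap.mpr hπM
  have hunitK : ∀ y : x.primeCompl, IsUnit (algebraMap A K y) := fun y =>
    IsUnit.mk0 _ ((map_ne_zero_iff _ hinjK).mpr (fun h0 => y.2 (h0 ▸ x.zero_mem)))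
  have hunit : ∀ y : x.primeCompl, IsUnit (algebraMap A L y) := fun y =>
    IsUnit.mk0 _ ((map_ne_zero_iff _ hinj).mpr (fun h0 => y.2 (h0 ▸ x.zero_mem)))
  let R := Localization.AtPrime x
  let algRK : Algebra R K := (IsLocalization.lift (M := x.primeCompl) hunitK).toAlgebra
  have towerARK : IsScalarTower A R K := IsScalarTower.of_algebraMap_eq fun a => by
    simp [RingHom.algebraMap_toAlgebra, R]
  have fracR : IsFractionRing R K :=
    IsFractionRing.isFractionRing_of_isDomain_of_isLocalization x.primeCompl R K
  let algRL : Algebra R L := ((algebraMap K L).comp (algebraMap R K)).toAlgebra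
  have towerRKL : IsScalarTower R K L := IsScalarTower.of_algebraMap_eq fun a => rfl
  have towerARL : IsScalarTower A R L := IsScalarTower.of_algebraMap_eq fun a => by
    rw [RingHom.algebraMap_toAlgebra, RingHom.comp_apply, ← IsScalarTower.algebraMap_apply A R K,
      ← IsScalarTower.algebraMap_apply A K L]
  have domR : IsDomain R := IsLocalization.isDomain_of_atPrime R x
  have locR : IsLocalRing R := IsLocalization.AtPrime.isLocalRing R x
  have noethR : IsNoetherianRing R := IsLocalization.isNoetherianRing x.primeCompl R inferInstance
  have icR : IsIntegrallyClosed R :=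
    isIntegrallyClosed_of_isLocalization R x.primeCompl x.primeCompl_le_nonZeroDivisors
  have pirR : IsPrincipalIdealRing (R ⧸ Ideal.span {algebraMap A R π}) :=
    RegLocal.isPrincipalIdealRing_quotient x.primeCompl R π
  have freeC : Module.Free R (integralClosure R L) :=
    RegLocal.free_integralClosure_of_isLocalization_atPrime hπ x hπx R K L
  have finC : Module.Finite R (integralClosure R L) :=
    IsIntegralClosure.finite R K L (integralClosure R L)
  have hπmem : algebraMap A R π ∈ IsLocalRing.maximalIdeal R :=
    RegLocal.algebraMap_mem_maximalIdeal π x R hπx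
  -- the discriminant is a unit
  have hb : IsUnit (Algebra.discr R (Module.Free.chooseBasis R (integralClosure R L))) := by
    refine LocalDisc.isUnit_discr (K := K) (L := L) x _ fun p hp hpx => h p hp ?_
    exact Ideal.mem_comap.mp hpx
  -- the localisation of the integral closure
  let algCC : Algebra (integralClosure A L) (integralClosure R L) :=
    (RegLocal.integralClosureMap (A := A) (L := L) R).toAlgebra
  have tower2 : IsScalarTower (integralClosure A L) (integralClosure R L) L :=
    IsScalarTower.of_algebraMap_eq fun c => rfl
  have tower3 : IsScalarTower A (integralClosure A L) (integralClosure R L) :=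
    IsScalarTower.of_algebraMap_eq fun a => Subtype.ext rfl
  have hLL : IsLocalization (Algebra.algebraMapSubmonoid L x.primeCompl) L := by
    apply IsLocalization.self
    rintro _ ⟨y, hy, rfl⟩
    exact hunit ⟨y, hy⟩
  have hloc' : IsLocalization (Algebra.algebraMapSubmonoid (integralClosure A L) x.primeCompl)
      (integralClosure R L) :=
    IsLocalization.integralClosure (S := L) (Rf := R) (Sf := L) x.primeCompl
  have hπeq : algebraMap (integralClosure A L) (integralClosure R L)
      (algebraMap A (integralClosure A L) π) =
      algebraMap R (integralClosure R L) (algebraMap A R π) := by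
    apply Subtype.ext
    change algebraMap A L π = algebraMap R L (algebraMap A R π)
    rw [← IsScalarTower.algebraMap_apply]
  have hMS : Disjoint
      ((Algebra.algebraMapSubmonoid (integralClosure A L) x.primeCompl :
        Submonoid (integralClosure A L)) : Set (integralClosure A L))
      (M : Set (integralClosure A L)) := by
    rw [Set.disjoint_left]
    rintro _ ⟨y, hy, rfl⟩ hxM
    exact hy (Ideal.mem_comap.mpr hxM)
  have hMp : M.IsPrime := hM.isPrime
  have hM'max : (M.map (algebraMap (integralClosure A L) (integralClosure R L))).IsMaximal :=
    isMaximal_map_of_isLocalization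
      (Algebra.algebraMapSubmonoid (integralClosure A L) x.primeCompl) M hM hMS
  obtain ⟨s, hs⟩ := LocalNB.exists_maximalIdeal_eq_span_pair (algebraMap A R π) hπmem
  have hloc := princAt_of_isUnit_discr (Module.Free.chooseBasis R (integralClosure R L)) hb hs
    (M.map (algebraMap (integralClosure A L) (integralClosure R L))) hM'max
  rw [← hπeq] at hloc
  exact princAt_of_isLocalization
    (Algebra.algebraMapSubmonoid (integralClosure A L) x.primeCompl)
    (algebraMap A (integralClosure A L) π) M hMS hloc

end Fermat.Agent.S37.Normal
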